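import Fermat.Agent.MahlerProducts.FunctionRelations
import Mathlib.RingTheory.RootsOfUnity.Complex
import Mathlib.Data.ZMod.Units

/-!
# The polynomials `1 - z ^ j`, `d ∤ j`

Let `G (x)` be the order of a rational `g` at `x ≠ 0`. If `g (z ^ d) = g (z) ∏ (1 - z ^ j) ^ e_j`
then `G (x ^ d) - G (x) = ∑ e_j [x ^ j = 1]`. A root of unity of order `M` is the `d`-th power of
one of order `d M`, where the right side vanishes. So `G` is constant on an infinite chain, hence
zero on all roots of unity, and the right side is zero everywhere.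
-/

set_option autoImplicit false

noncomputable section

namespace FA.MahlerProducts

open Finset Polynomial
open FA.MahlerTwist (frob frob_algebraMap)

variable {d : ℕ}

theorem rootMultiplicity_expand_of_ne_zero (hd : 0 < d) {p : ℂ[X]} (hp : p ≠ 0) {x : ℂ}
    (hx : x ≠ 0) : (expand ℂ d p).rootMultiplicity x = p.rootMultiplicity (x ^ d) := by
  classical
  obtain ⟨g, hg, hndvd⟩ := p.exists_eq_pow_rootMultiplicity_mul_and_not_dvd hp (x ^ d)
  rw [dvd_iff_isRoot] at hndvd
  set t := p.rootMultiplicity (x ^ d)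
  have hd' : (d : ℂ) ≠ 0 := Nat.cast_ne_zero.2 hd.ne'
  have hA : (X ^ d - C (x ^ d) : ℂ[X]) ≠ 0 := (monic_X_pow_sub_C _ hd.ne').ne_zero
  have h1 : (X ^ d - C (x ^ d) : ℂ[X]).rootMultiplicity x = 1 := le_antisymm
    (rootMultiplicity_le_one_of_separable
      (separable_X_pow_sub_C (x ^ d) hd' (pow_ne_zero _ hx)) x)
    ((rootMultiplicity_pos hA).2 (by simp [IsRoot]))
  have hB : expand ℂ d g ≠ 0 := (expand_ne_zero hd).2 fun h => hp (by rw [hg, h, mul_zero])
  rw [hg, map_mul, map_pow, map_sub, expand_X, expand_C,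
    rootMultiplicity_mul (mul_ne_zero (pow_ne_zero _ hA) hB), ← count_roots, roots_pow,
    Multiset.count_nsmul, count_roots, h1, rootMultiplicity_eq_zero (by
      rwa [IsRoot, expand_eval]), add_zero, mul_one]

theorem rootMultiplicity_one_sub_pow {j : ℕ} (hj : 0 < j) (x : ℂ) [Decidable (x ^ j = 1)] :
    (1 - X ^ j : ℂ[X]).rootMultiplicity x = if x ^ j = 1 then 1 else 0 := by
  have h0 : (1 - X ^ j : ℂ[X]) ≠ 0 := fun h => by
    simpa [hj.ne'] using congrArg (Polynomial.eval 0) h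
  split_ifs with h
  · refine le_antisymm (rootMultiplicity_le_one_of_separable ?_ x)
      ((rootMultiplicity_pos h0).2 (by simp [IsRoot, h]))
    rw [← neg_sub, ← map_one (C : ℂ →+* ℂ[X])]
    exact (separable_X_pow_sub_C (1 : ℂ) (Nat.cast_ne_zero.2 hj.ne') one_ne_zero).of_dvd
      (neg_dvd.2 dvd_rfl)
  · refine rootMultiplicity_eq_zero ?_
    simpa [IsRoot, sub_eq_zero] using fun h' => h h'.symm

/-- A root of unity of order `M` is a `d`-th power of one of order `d M`. -/
theorem exists_primitive_root_pow {M : ℕ} (hd : 0 < d) (hM : 0 < M) {x : ℂ}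
    (hx : IsPrimitiveRoot x M) : ∃ y, IsPrimitiveRoot y (d * M) ∧ y ^ d = x := by
  have : NeZero M := ⟨hM.ne'⟩
  have : NeZero (d * M) := ⟨(Nat.mul_pos hd hM).ne'⟩
  have hξ := Complex.isPrimitiveRoot_exp (d * M) (Nat.mul_pos hd hM).ne'
  have hξd := hξ.pow (Nat.mul_pos hd hM) rfl
  obtain ⟨i, -, hi, rfl⟩ := (hξd.isPrimitiveRoot_iff).1 hx
  obtain ⟨w, hw⟩ := ZMod.unitsMap_surjective (dvd_mul_left M d) (ZMod.unitOfCoprime i hi)
  refine ⟨_, hξ.pow_of_coprime _ (ZMod.val_coe_unit_coprime w), ?_⟩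
  rw [pow_right_comm]
  have h := congrArg Units.val hw
  rw [ZMod.unitsMap_val, ZMod.coe_unitOfCoprime, ← ZMod.natCast_val,
    ZMod.natCast_eq_natCast_iff] at h
  rw [pow_eq_pow_mod _ hξd.pow_eq_one, h, ← pow_eq_pow_mod _ hξd.pow_eq_one]

theorem noQuotient_one_sub_pow (hd : 2 ≤ d) {n : ℕ} {j : Fin n → ℕ} (hj : ∀ i, ¬ d ∣ j i)
    (hinj : Function.Injective j) :
    NoQuotient (by omega : 0 < d) (fun i => (1 : ℂ[X]) - X ^ j i) (fun _ => 1) := by
  classical
  intro e g hg he
  have hd0 : 0 < d := by omega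
  have hpos : ∀ i, 0 < j i := fun i => Nat.pos_of_ne_zero fun h => hj i (h ▸ dvd_zero d)
  set p := g.num
  set q := g.denom
  have hp : p ≠ 0 := RatFunc.num_ne_zero hg
  have hq : q ≠ 0 := RatFunc.denom_ne_zero g
  set a : Fin n → ℕ := fun i => (e i).toNat
  set b : Fin n → ℕ := fun i => (-e i).toNat
  set w : Fin n → ℂ[X] := fun i => 1 - X ^ j i
  have hw : ∀ i, w i ≠ 0 := fun i h => by
    simpa [w, (hpos i).ne'] using congrArg (Polynomial.eval 0) h
  have hpoly : expand ℂ d p * q * ∏ i, w i ^ b i = p * expand ℂ d q * ∏ i, w i ^ a i := by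
    refine RatFunc.algebraMap_injective ℂ ?_
    set F := algebraMap ℂ[X] (RatFunc ℂ)
    have hne : ∀ {r : ℂ[X]}, r ≠ 0 → F r ≠ 0 := fun hr => RatFunc.algebraMap_ne_zero hr
    have h1 : ∀ i, (F (w i) / F 1) ^ e i * F (w i) ^ b i = F (w i) ^ a i := fun i => by
      rw [map_one, div_one, ← zpow_natCast, ← zpow_natCast, ← zpow_add₀ (hne (hw i))]
      congr 1
      simp only [a, b]
      omega
    rw [show g = F p / F q from (RatFunc.num_div_denom g).symm, map_div₀, frob_algebraMap,
      frob_algebraMap] at he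
    simp only [map_mul, map_prod, map_pow]
    rw [← prod_congr rfl fun i _ => h1 i, prod_mul_distrib]
    rw [div_eq_iff (hne fun h => hq (expand_injective hd0 (h.trans (map_zero _).symm)))] at he
    rw [he]
    field_simp [hne hq]
  set G : ℂ → ℤ := fun x => (p.rootMultiplicity x : ℤ) - q.rootMultiplicity x
  set D : ℂ → ℤ := fun x => ∑ i, e i * if x ^ j i = 1 then 1 else 0
  have hrel : ∀ x : ℂ, x ≠ 0 → G (x ^ d) - G x = D x := fun x hx => by
    have hprod : ∀ k : Fin n → ℕ, ∏ i, w i ^ k i ≠ 0 ∧ ((∏ i, w i ^ k i).rootMultiplicity x : ℤ) =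
        ∑ i, (k i : ℤ) * if x ^ j i = 1 then 1 else 0 := fun k => by
      have h0 : ∏ i, w i ^ k i ≠ 0 := prod_ne_zero_iff.2 fun i _ => pow_ne_zero _ (hw i)
      refine ⟨h0, ?_⟩
      rw [← count_roots, roots_prod _ _ h0, Multiset.count_bind]
      push_cast [roots_pow, Multiset.count_nsmul, count_roots, w,
        rootMultiplicity_one_sub_pow (hpos _) x]
      rw [Multiset.map_map]
      refine sum_congr rfl fun i _ => ?_
      simp
    have hxp : ∀ {r : ℂ[X]}, r ≠ 0 → expand ℂ d r ≠ 0 := fun hr => (expand_ne_zero hd0).2 hr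
    have h1 := congrArg (rootMultiplicity x) hpoly
    rw [rootMultiplicity_mul (mul_ne_zero (mul_ne_zero (hxp hp) hq) (hprod b).1),
      rootMultiplicity_mul (mul_ne_zero (hxp hp) hq),
      rootMultiplicity_mul (mul_ne_zero (mul_ne_zero hp (hxp hq)) (hprod a).1),
      rootMultiplicity_mul (mul_ne_zero hp (hxp hq)),
      rootMultiplicity_expand_of_ne_zero hd0 hp hx,
      rootMultiplicity_expand_of_ne_zero hd0 hq hx] at h1
    have h2 : ∀ i, e i = (a i : ℤ) - b i := fun i => by simp only [a, b]; omega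
    have ha := (hprod a).2
    have hb := (hprod b).2
    simp only [G, D, h2, sub_mul, sum_sub_distrib]
    linarith [congrArg (fun m : ℕ => (m : ℤ)) h1]
  have hzero : ∀ (M : ℕ) (x : ℂ), 0 < M → IsPrimitiveRoot x M → G x = 0 := fun M x hM hx => by
    by_contra hG
    have hlong : ∀ k : ℕ, ∃ y, IsPrimitiveRoot y (d ^ k * M) ∧ G y = G x := fun k => by
      induction k with
      | zero => exact ⟨x, by simpa using hx, rfl⟩
      | succ k ih =>
        obtain ⟨y, hy, hGy⟩ := ih
        obtain ⟨z, hz, hzy⟩ := exists_primitive_root_pow hd0 (by positivity) hy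
        refine ⟨z, by rwa [pow_succ', mul_assoc], ?_⟩
        have hD : D z = 0 := sum_eq_zero fun i _ => by
          rw [if_neg fun h => hj i ((dvd_mul_right d _).trans (hz.dvd_of_pow_eq_one _ h)),
            mul_zero]
        have := hrel z (hz.ne_zero (by positivity))
        rw [hzy, hD] at this
        omega
    choose y hy hGy using hlong
    have hy' : Function.Injective y := fun k l hkl => Nat.pow_right_injective hd
      (Nat.eq_of_mul_eq_mul_right hM ((hy k).unique (hkl ▸ hy l)))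
    refine not_injective_infinite_finite (fun k => (⟨y k, ?_⟩ : ↥(p * q).roots.toFinset))
      fun k l hkl => hy' (congrArg Subtype.val hkl)
    rw [Multiset.mem_toFinset, mem_roots (mul_ne_zero hp hq)]
    by_contra hr
    rw [IsRoot, eval_mul, mul_eq_zero, not_or] at hr
    exact hG (by rw [← hGy k]; simp [G, rootMultiplicity_eq_zero, IsRoot, hr.1, hr.2])
  by_contra hne
  obtain ⟨i₀, hi₀, hmax⟩ := (univ.filter fun i => e i ≠ 0).exists_max_image j (by
    obtain ⟨i, hi⟩ := Function.ne_iff.1 hne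
    exact ⟨i, mem_filter.2 ⟨mem_univ i, hi⟩⟩)
  obtain ⟨x, hx⟩ : ∃ x : ℂ, IsPrimitiveRoot x (j i₀) :=
    ⟨_, Complex.isPrimitiveRoot_exp _ (hpos i₀).ne'⟩
  have hx0 : x ≠ 0 := hx.ne_zero (hpos i₀).ne'
  have hxd : (x ^ d) ^ j i₀ = 1 := by rw [← pow_mul, mul_comm, pow_mul, hx.pow_eq_one, one_pow]
  have h := hrel x hx0
  rw [hzero _ x (hpos i₀) hx, hzero _ (x ^ d)
    (Nat.pos_of_dvd_of_pos (orderOf_dvd_of_pow_eq_one hxd) (hpos i₀)) (IsPrimitiveRoot.orderOf _),
    sub_zero, eq_comm] at h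
  refine (mem_filter.1 hi₀).2 ?_
  simp only [D] at h
  rw [sum_eq_single i₀ (fun i _ hi => ?_) (fun h => absurd (mem_univ _) h), if_pos hx.pow_eq_one,
    mul_one] at h
  · exact h
  · by_cases hei : e i = 0
    · simp [hei]
    rw [if_neg fun h' => hi (hinj (le_antisymm (hmax i (mem_filter.2 ⟨mem_univ i, hei⟩))
      (Nat.le_of_dvd (hpos i) (hx.dvd_of_pow_eq_one _ h')))), mul_zero]

end FA.MahlerProducts

end
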