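import Fermat.Agent.MahlerTwist.FunctionRelations

/-!
# No relation between solutions of multiplicative Mahler equations

If `v_i (z) f_i (z ^ d) = u_i (z) f_i (z)`, a shortest polynomial relation `∑ c_ρ f ^ ρ = 0` and
its image under `z ↦ z ^ d` are proportional, so `g = c_σ / c_ρ` satisfies
`g (z ^ d) = g (z) ∏ (u_i / v_i) ^ (ρ_i - σ_i)`.
-/

set_option autoImplicit false

noncomputable section

namespace FA.MahlerProducts

open Finset Polynomial
open Filter Topology
open FA.MahlerTwist (frob frob_algebraMap eventually_eval_ne_zero)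

variable {n d : ℕ}

/-- No product of powers of the `u_i / v_i` is `g (z ^ d) / g (z)`. -/
def NoQuotient (hd : 0 < d) (u v : Fin n → ℂ[X]) : Prop :=
  ∀ (e : Fin n → ℤ) (g : RatFunc ℂ), g ≠ 0 → frob hd g = g * ∏ i,
    (algebraMap ℂ[X] (RatFunc ℂ) (u i) / algebraMap _ _ (v i)) ^ e i → e = 0

/-- **No relation.** -/
theorem no_relation (hd : 0 < d) {f : Fin n → ℂ → ℂ} {u v : Fin n → ℂ[X]}
    (hu : ∀ i, u i ≠ 0) (hv : ∀ i, v i ≠ 0)
    (heq : ∀ i, ∀ z : ℂ, ‖z‖ < 1 → (v i).eval z * f i (z ^ d) = (u i).eval z * f i z)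
    (hf : ∀ i, ∀ᶠ z in 𝓝[≠] (0 : ℂ), f i z ≠ 0) (hb : NoQuotient hd u v)
    {P : MvPolynomial (Fin n) ℂ[X]} (hP : ∀ᶠ z in 𝓝[≠] (0 : ℂ),
      MvPolynomial.eval₂ (evalRingHom z) (fun i => f i z) P = 0) : P = 0 := by
  classical
  induction hN : P.support.card using Nat.strong_induction_on generalizing P with
  | _ N ih =>
  by_contra h0
  obtain ⟨ρ, hρ⟩ := Finset.nonempty_iff_ne_empty.2 fun h => h0 (MvPolynomial.support_eq_empty.1 h)
  let val : ℂ → MvPolynomial (Fin n) ℂ[X] →+* ℂ :=
    fun z => MvPolynomial.eval₂Hom (evalRingHom z) fun i => f i z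
  set T := P.support.sup fun ν => univ.sup fun i => ν i
  have hT : ∀ ν ∈ P.support, ∀ i, ν i ≤ T := fun ν hν i =>
    (le_sup (f := fun i => ν i) (mem_univ i)).trans
      (le_sup (f := fun ν : Fin n →₀ ℕ => univ.sup fun i => ν i) hν)
  let q : (Fin n →₀ ℕ) → ℂ[X] := fun ν =>
    expand ℂ d (MvPolynomial.coeff ν P) * ∏ i, u i ^ ν i * v i ^ (T - ν i)
  set Q := ∑ ν ∈ P.support, MvPolynomial.monomial ν (q ν) with hQ
  have hlim : Tendsto (fun z : ℂ => z ^ d) (𝓝[≠] 0) (𝓝[≠] 0) := by
    refine tendsto_nhdsWithin_iff.2 ⟨?_, eventually_nhdsWithin_of_forall fun z hz => ?_⟩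
    · exact ((continuous_pow d).tendsto' 0 0 (zero_pow hd.ne')).mono_left nhdsWithin_le_nhds
    · exact pow_ne_zero d hz
  -- the relation at `z ^ d`
  have hQ0 : ∀ᶠ z in 𝓝[≠] (0 : ℂ), val z Q = 0 := by
    filter_upwards [hlim.eventually hP,
      nhdsWithin_le_nhds (Metric.ball_mem_nhds (0 : ℂ) one_pos)] with z hz hz1
    rw [MvPolynomial.eval₂_eq'] at hz
    rw [hQ, map_sum]
    calc ∑ ν ∈ P.support, val z (MvPolynomial.monomial ν (q ν))
        = ∑ ν ∈ P.support, (∏ i, (v i).eval z ^ T) *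
            (evalRingHom (z ^ d) (MvPolynomial.coeff ν P) * ∏ i, f i (z ^ d) ^ ν i) := by
          refine sum_congr rfl fun ν hν => ?_
          simp only [val, MvPolynomial.eval₂Hom_monomial, Finsupp.prod_pow, q, coe_evalRingHom,
            eval_mul, expand_eval, eval_prod, eval_pow]
          rw [mul_assoc, mul_left_comm (∏ i, (v i).eval z ^ T), ← prod_mul_distrib,
            ← prod_mul_distrib]
          refine congrArg _ (prod_congr rfl fun i _ => ?_)
          rw [mul_right_comm, ← mul_pow, ← heq i z (by simpa using hz1), mul_pow, mul_right_comm,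
            ← pow_add, Nat.add_sub_cancel' (hT ν hν i)]
      _ = 0 := by rw [← mul_sum, hz, mul_zero]
  have hcoeff : ∀ ν, MvPolynomial.coeff ν Q = if ν ∈ P.support then q ν else 0 := fun ν => by
    simp [Q, MvPolynomial.coeff_sum, MvPolynomial.coeff_monomial]
  -- eliminate `ρ`
  set S := MvPolynomial.C (MvPolynomial.coeff ρ P) * Q - MvPolynomial.C (q ρ) * P with hS
  have hScoeff : ∀ ν, MvPolynomial.coeff ν S = MvPolynomial.coeff ρ P *
      (if ν ∈ P.support then q ν else 0) - q ρ * MvPolynomial.coeff ν P := fun ν => by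
    rw [hS, MvPolynomial.coeff_sub, MvPolynomial.coeff_C_mul, MvPolynomial.coeff_C_mul, hcoeff]
  have hS0 : S = 0 := by
    refine ih S.support.card ?_ ?_ rfl
    · refine lt_of_le_of_lt (card_le_card fun ν hν => ?_)
        ((card_erase_lt_of_mem hρ).trans_eq hN)
      rw [MvPolynomial.mem_support_iff, hScoeff] at hν
      refine mem_erase.2 ⟨fun h => hν ?_, by_contra fun h => hν ?_⟩
      · rw [h, if_pos hρ]; ring
      · rw [if_neg h, MvPolynomial.notMem_support_iff.1 h]; ring
    · filter_upwards [hP, hQ0] with z hz hz'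
      change val z S = 0
      rw [hS, map_sub, map_mul, map_mul, hz', show val z P = 0 from hz]
      ring
  have hone : ∀ ν ∈ P.support, ν = ρ := fun ν hν => by
    have hcν := MvPolynomial.mem_support_iff.1 hν
    have hcρ := MvPolynomial.mem_support_iff.1 hρ
    have h1 := hScoeff ν
    rw [hS0, MvPolynomial.coeff_zero, if_pos hν, eq_comm, sub_eq_zero] at h1
    set F := algebraMap ℂ[X] (RatFunc ℂ)
    have hne : ∀ {p : ℂ[X]}, p ≠ 0 → F p ≠ 0 := fun hp => RatFunc.algebraMap_ne_zero hp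
    have h2 := congrArg F h1
    simp only [q, map_mul, map_prod, map_pow, prod_mul_distrib] at h2
    have hg : frob hd (F (MvPolynomial.coeff ν P) / F (MvPolynomial.coeff ρ P)) =
        F (MvPolynomial.coeff ν P) / F (MvPolynomial.coeff ρ P) *
          ∏ i, (F (u i) / F (v i)) ^ ((ρ i : ℤ) - ν i) := by
      have e : ∀ i, (F (u i) / F (v i)) ^ ((ρ i : ℤ) - ν i) =
          F (u i) ^ ρ i * F (v i) ^ (T - ρ i) / (F (u i) ^ ν i * F (v i) ^ (T - ν i)) :=
        fun i => by
        rw [zpow_sub₀ (div_ne_zero (hne (hu i)) (hne (hv i))), zpow_natCast, zpow_natCast,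
          pow_sub₀ _ (hne (hv i)) (hT ρ hρ i), pow_sub₀ _ (hne (hv i)) (hT ν hν i), div_pow,
          div_pow]
        field_simp [hne (hu i), hne (hv i)]
      rw [map_div₀, frob_algebraMap, frob_algebraMap, prod_congr rfl fun i _ => e i,
        prod_div_distrib, prod_mul_distrib, prod_mul_distrib, div_mul_div_comm, div_eq_div_iff
          (hne fun h => hcρ (expand_injective hd (h.trans (map_zero _).symm)))
          (mul_ne_zero (hne hcρ) (mul_ne_zero
            (prod_ne_zero_iff.2 fun i _ => pow_ne_zero _ (hne (hu i)))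
            (prod_ne_zero_iff.2 fun i _ => pow_ne_zero _ (hne (hv i)))))]
      linear_combination h2
    have h3 := hb _ _ (div_ne_zero (hne hcν) (hne hcρ)) hg
    ext i
    have := congrFun h3 i
    simp only [Pi.zero_apply] at this
    omega
  have hc := MvPolynomial.mem_support_iff.1 hρ
  obtain ⟨z, hz, hz1, hz2⟩ :=
    (hP.and ((eventually_eval_ne_zero hc).and (eventually_all.2 hf))).exists
  rw [MvPolynomial.eval₂_eq', sum_eq_single ρ (fun ν hν hne => absurd (hone ν hν) hne)
    (fun h => absurd hρ h)] at hz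
  exact mul_ne_zero hz1 (prod_ne_zero_iff.2 fun i _ => pow_ne_zero _ (hz2 i)) hz

end FA.MahlerProducts

end
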