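import Fermat.Agent.MahlerProducts.FunctionRelations
import Fermat.Agent.MahlerTwist.Values

/-!
# Mahler's method for multiplicative equations

If `v (z) f (z ^ d) = u (z) f (z)` and `f (0) = 1` then `f (α) = γ_k f (α ^ (d ^ k))` with
`γ_k = ∏ v / u` of height `O (d ^ k)`, bounded in absolute value. A relation `R (f (α)) = 0` gives
`R (γ_k f (z)) = 0` at `z = α ^ (d ^ k)`; the auxiliary polynomial in `z` and `γ` has values there
of size `|α| ^ (M d^k)` and height `O (N d^k)`, not all zero as the `f_i` are independent.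
-/

set_option autoImplicit false
set_option linter.style.haveILetI false

noncomputable section

namespace FA.MahlerProducts

open Finset NumberField Module
open Filter Topology
open FA.Mahler (Rep Bd exists_bd)
open FA.MahlerTwist (Adm adm_C adm_sum boxSpan self_mem_boxSpan algebraMap_mem_boxSpan
  one_mem_boxSpan exists_auxiliary house_prod_le)

variable {K : Type*} [Field K] {n : ℕ}

/-- The series of `R (γ f (z))`. -/
def serP (c : Fin n → ℕ → K) (R : MvPolynomial (Fin n) K) :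
    PowerSeries (MvPolynomial (Fin n) K) :=
  MvPolynomial.eval₂ (PowerSeries.C.comp MvPolynomial.C) (fun i =>
    PowerSeries.C (MvPolynomial.X i) * PowerSeries.map MvPolynomial.C (PowerSeries.mk (c i))) R

variable {ψ : K →+* ℂ} {c : Fin n → ℕ → K} {R : MvPolynomial (Fin n) K} {f : Fin n → ℂ → ℂ}

theorem adm_serP (hf : ∀ i, Rep ψ (PowerSeries.mk (c i)) (f i)) :
    Adm ψ MvPolynomial.X R.totalDegree (serP c R) := by
  classical
  rw [serP, MvPolynomial.eval₂_eq']
  refine adm_sum _ fun ν hν => ?_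
  have hbase : ∀ i : Fin n, Adm ψ (MvPolynomial.X : Fin n → MvPolynomial (Fin n) K) 1
      (PowerSeries.C (MvPolynomial.X i) *
        PowerSeries.map MvPolynomial.C (PowerSeries.mk (c i))) :=
    fun i => .term (self_mem_boxSpan i) (hf i)
  have hprod : ∀ s : Finset (Fin n), Adm ψ (MvPolynomial.X : Fin n → MvPolynomial (Fin n) K)
      (∑ i ∈ s, ν i) (∏ i ∈ s, (PowerSeries.C (MvPolynomial.X i) *
        PowerSeries.map MvPolynomial.C (PowerSeries.mk (c i))) ^ ν i) := fun s => by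
    induction s using Finset.induction with
    | empty => rw [prod_empty, ← map_one PowerSeries.C]; exact adm_C one_mem_boxSpan
    | insert i s hi ih =>
      rw [prod_insert hi, sum_insert hi]
      exact (((hbase i).pow (ν i)).mono (by rw [mul_one])).mul ih
  refine Adm.mono ((adm_C (T := 0) (algebraMap_mem_boxSpan _)).mul (hprod univ)) ?_
  rw [zero_add, ← Finsupp.degree_eq_sum]
  exact MvPolynomial.le_totalDegree hν

theorem constantCoeff_serP (hc : ∀ i, c i 0 = 1) :
    PowerSeries.constantCoeff (serP c R) = R := by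
  have h : (PowerSeries.constantCoeff.comp (MvPolynomial.eval₂Hom
      (PowerSeries.C.comp MvPolynomial.C) fun i => PowerSeries.C (MvPolynomial.X i) *
        PowerSeries.map MvPolynomial.C (PowerSeries.mk (c i)))) =
      RingHom.id (MvPolynomial (Fin n) K) := by
    refine MvPolynomial.ringHom_ext (fun x => by simp) fun i => ?_
    simp [← PowerSeries.coeff_zero_eq_constantCoeff_apply, hc]
  exact congrArg (fun F : MvPolynomial (Fin n) K →+* MvPolynomial (Fin n) K => F R) h

/-- A value of `∑ η z ^ j γ ^ v` is not zero for infinitely many `k`. -/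
theorem frequently_sum_ne_zero {d : ℕ} (hd : 2 ≤ d)
    (hdiff : ∀ i, DifferentiableOn ℂ (f i) (Metric.ball 0 1))
    (hno : ∀ P : MvPolynomial (Fin n) (Polynomial ℂ), (∀ᶠ z in 𝓝[≠] (0 : ℂ),
      MvPolynomial.eval₂ (Polynomial.evalRingHom z) (fun i => f i z) P = 0) → P = 0)
    {β : ℂ} (hβ0 : β ≠ 0) (hβ1 : ‖β‖ < 1) (hfβ : ∀ i, f i β ≠ 0) (γ : ℕ → Fin n → ℂ)
    (hval : ∀ k i, γ k i * f i (β ^ d ^ k) = f i β) {N : ℕ}
    (η : Fin (N + 1) → (Fin n → Fin (N + 1)) → ℂ) {j₀ : Fin (N + 1)} {v₀ : Fin n → Fin (N + 1)}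
    (hη : η j₀ v₀ ≠ 0) :
    ∃ᶠ k in atTop, ∑ j, ∑ v, η j v * ((β ^ d ^ k) ^ j.val * ∏ i, γ k i ^ (v i).val) ≠ 0 := by
  classical
  intro hev0
  simp only [not_not] at hev0
  let μ : (Fin n → Fin (N + 1)) → Fin n →₀ ℕ :=
    fun v => Finsupp.equivFunOnFinite.symm fun i => N - (v i).val
  set Q : MvPolynomial (Fin n) (Polynomial ℂ) := ∑ j : Fin (N + 1), ∑ v,
    MvPolynomial.monomial (μ v) (Polynomial.monomial j.val (η j v * ∏ i, f i β ^ (v i).val))
    with hQ
  let H : ℂ → ℂ := fun z =>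
    MvPolynomial.eval₂Hom (Polynomial.evalRingHom z) (fun i => f i z) Q
  have hH : ∀ k, H (β ^ d ^ k) = (∏ i, f i (β ^ d ^ k) ^ N) *
      ∑ j, ∑ v, η j v * ((β ^ d ^ k) ^ j.val * ∏ i, γ k i ^ (v i).val) := fun k => by
    simp only [H, hQ, map_sum, mul_sum, MvPolynomial.eval₂Hom_monomial, Finsupp.prod_pow, μ,
      Polynomial.coe_evalRingHom, Polynomial.eval_monomial, Finsupp.coe_equivFunOnFinite_symm]
    refine sum_congr rfl fun j _ => sum_congr rfl fun v _ => ?_
    have e : (∏ i, f i β ^ (v i).val) * ∏ i, f i (β ^ d ^ k) ^ (N - (v i).val) =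
        (∏ i, f i (β ^ d ^ k) ^ N) * ∏ i, γ k i ^ (v i).val := by
      rw [← prod_mul_distrib, ← prod_mul_distrib]
      refine prod_congr rfl fun i _ => ?_
      have hv : (v i).val ≤ N := Nat.lt_succ_iff.1 (v i).isLt
      rw [← hval k i, mul_pow, mul_assoc, ← pow_add, Nat.add_sub_cancel' hv]
      ring
    linear_combination (η j v * (β ^ d ^ k) ^ j.val) * e
  have han : AnalyticAt ℂ H 0 := by
    refine DifferentiableOn.analyticAt (s := Metric.ball 0 1) (fun z hz => ?_)
      (Metric.ball_mem_nhds _ one_pos)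
    simp only [H]
    induction Q using MvPolynomial.induction_on with
    | C p => simpa using (p.differentiableAt (𝕜 := ℂ) (x := z)).differentiableWithinAt
    | add p q hp hq => simp only [map_add]; exact hp.add hq
    | mul_X p i hp =>
      simp only [map_mul, MvPolynomial.eval₂Hom_X'] at hp ⊢
      exact hp.mul (hdiff i z hz)
  have hlim : Tendsto (fun k : ℕ => β ^ d ^ k) atTop (𝓝[≠] 0) := tendsto_nhdsWithin_iff.2
    ⟨(tendsto_pow_atTop_nhds_zero_of_norm_lt_one hβ1).comp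
      (tendsto_pow_atTop_atTop_of_one_lt (by omega : 1 < d)),
      Eventually.of_forall fun k => pow_ne_zero _ hβ0⟩
  have hzero : ∀ᶠ z in 𝓝[≠] (0 : ℂ), H z = 0 := nhdsWithin_le_nhds
    (han.frequently_zero_iff_eventually_zero.1 (hlim.frequently (hev0.mono fun k hk => by
      rw [hH, hk, mul_zero]).frequently))
  have hQ0 := hno Q hzero
  have h1 := congrArg (fun P : MvPolynomial (Fin n) (Polynomial ℂ) =>
    (MvPolynomial.coeff (μ v₀) P).coeff j₀.val) hQ0
  have hμ : ∀ v, μ v = μ v₀ ↔ v = v₀ := fun v => ⟨fun h => funext fun i => by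
    have := congrArg (fun x : Fin n →₀ ℕ => x i) h
    simp only [μ, Finsupp.coe_equivFunOnFinite_symm] at this
    exact Fin.ext (by have := (v i).isLt; have := (v₀ i).isLt; omega), fun h => h ▸ rfl⟩
  simp only [hQ, MvPolynomial.coeff_sum, MvPolynomial.coeff_monomial, hμ, sum_ite_eq', mem_univ,
    if_true, Polynomial.finsetSum_coeff, MvPolynomial.coeff_zero, Polynomial.coeff_zero,
    Polynomial.coeff_monomial, Fin.val_inj, mul_eq_zero] at h1
  exact h1.elim hη (prod_ne_zero_iff.2 fun i _ => pow_ne_zero _ (hfβ i))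

variable [NumberField K]

set_option maxHeartbeats 1000000 in
/-- **Mahler's argument, multiplicative.** -/
theorem false_of_value_relation (ψ : K →+* ℂ) (c : Fin n → ℕ → K) {f : Fin n → ℂ → ℂ}
    (hf : ∀ i, Rep ψ (PowerSeries.mk (c i)) (f i)) (hc : ∀ i, c i 0 = 1) {d : ℕ} (hd : 2 ≤ d)
    (u v : Fin n → Polynomial K)
    (heq : ∀ i, ∀ z : ℂ, ‖z‖ < 1 →
      ((v i).map ψ).eval z * f i (z ^ d) = ((u i).map ψ).eval z * f i z)
    (hb : NoQuotient (by omega : 0 < d) (fun i => (u i).map ψ) fun i => (v i).map ψ)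
    (α : K) (hα0 : α ≠ 0) (hα1 : ‖ψ α‖ < 1) (hu : ∀ i k, (u i).eval (α ^ d ^ k) ≠ 0)
    (hv : ∀ i k, (v i).eval (α ^ d ^ k) ≠ 0)
    {R : MvPolynomial (Fin n) K} (hR : R ≠ 0)
    (hRα : MvPolynomial.eval₂ ψ (fun i => f i (ψ α)) R = 0) : False := by
  classical
  set g := univ.sup fun i => max (u i).natDegree (v i).natDegree
  obtain ⟨W, hW2, hbd⟩ := exists_bd (insert α
    (((univ ×ˢ range (g + 1)).image fun p : Fin n × ℕ => (u p.1).coeff p.2) ∪
    ((univ ×ˢ range (g + 1)).image fun p : Fin n × ℕ => (v p.1).coeff p.2)))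
  have hW : 1 ≤ W := one_le_two.trans hW2
  have hαk : ∀ k, Bd W (d ^ k) (α ^ d ^ k) := fun k => by
    simpa using (hbd α (mem_insert_self _ _)).pow hW (d ^ k)
  set G := (g + 1) * (g + 2)
  have hev : ∀ P : Polynomial K, P.natDegree ≤ g → (∀ j ≤ g, Bd W 1 (P.coeff j)) →
      ∀ k, Bd W (G * d ^ k) (P.eval (α ^ d ^ k)) := fun P hP hc k => by
    rw [Polynomial.eval_eq_sum_range' (Nat.lt_succ_of_le hP)]
    refine (Bd.sum hW2 (e := 1 + g * d ^ k) (g + 1) fun j hj => ?_).mono hW ?_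
    · exact ((hc j (by omega)).mul hW ((hαk k).pow hW j)).mono hW
        (Nat.add_le_add_left (Nat.mul_le_mul_right _ (by omega)) _)
    · have : 1 ≤ d ^ k := Nat.one_le_pow _ _ (by omega)
      simp only [G]
      nlinarith
  have hdeg : ∀ i, (u i).natDegree ≤ g ∧ (v i).natDegree ≤ g := fun i =>
    max_le_iff.1 (le_sup (f := fun i => max (u i).natDegree (v i).natDegree) (mem_univ i))
  have hmem : ∀ i, ∀ j ≤ g, Bd W 1 ((u i).coeff j) ∧ Bd W 1 ((v i).coeff j) := fun i j hj => by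
    refine ⟨hbd _ ?_, hbd _ ?_⟩ <;>
      simp only [mem_insert, mem_union, mem_image, mem_product, mem_univ, true_and, mem_range] <;>
      refine Or.inr ?_
    exacts [Or.inl ⟨(i, j), by simp only; omega, rfl⟩, Or.inr ⟨(i, j), by simp only; omega, rfl⟩]
  set h := finrank ℚ K
  set J := (2 * h + 2) * G + 1
  let γ : ℕ → Fin n → K := fun k i => ∏ j ∈ range k,
    (v i).eval (α ^ d ^ j) * ((u i).eval (α ^ d ^ j))⁻¹
  have hγ : ∀ k i, Bd W (J * d ^ k) (γ k i) := fun k i => by
    induction k with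
    | zero => exact ⟨1, one_ne_zero, by simpa using one_le_pow₀ hW,
        by simpa [γ] using isIntegral_one,
        by simpa [γ] using FA.Mahler.house_one_le.trans (one_le_pow₀ hW)⟩
    | succ k ih =>
      rw [show γ (k + 1) i = γ k i * ((v i).eval (α ^ d ^ k) * ((u i).eval (α ^ d ^ k))⁻¹) by
        simp only [γ, prod_range_succ]]
      refine (ih.mul hW ((hev _ (hdeg i).2 (fun j hj => (hmem i j hj).2) k).mul hW
        ((hev _ (hdeg i).1 (fun j hj => (hmem i j hj).1) k).inv hW (hu i k)))).mono hW ?_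
      have h2 : J * (2 * d ^ k) ≤ J * d ^ (k + 1) := by
        rw [pow_succ']; exact Nat.mul_le_mul_left _ (Nat.mul_le_mul_right _ hd)
      simp only [J, h] at h2 ⊢
      nlinarith [Nat.zero_le (d ^ k)]
  have hz1 : ∀ k, ‖ψ α ^ d ^ k‖ < 1 := fun k => by
    rw [norm_pow]; exact pow_lt_one₀ (norm_nonneg _) hα1 (pow_ne_zero _ (by omega))
  have hval : ∀ k i, ψ (γ k i) * f i (ψ α ^ d ^ k) = f i (ψ α) := fun k i => by
    induction k with
    | zero => simp [γ]
    | succ k ih =>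
      have h1 := heq i _ (hz1 k)
      simp only [← map_pow, Polynomial.eval_map, Polynomial.eval₂_hom] at h1
      have h0 : ψ ((u i).eval (α ^ d ^ k)) ≠ 0 := (map_ne_zero ψ).mpr (hu i k)
      rw [← ih, show γ (k + 1) i = γ k i * ((v i).eval (α ^ d ^ k) *
        ((u i).eval (α ^ d ^ k))⁻¹) by simp only [γ, prod_range_succ], map_mul, map_mul, map_inv₀,
        pow_succ d, pow_mul]
      simp only [map_pow] at h1 h0 ⊢
      field_simp
      linear_combination (ψ (γ k i)) * h1
  -- `f (0) = 1`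
  have hf0 : ∀ i, f i 0 = 1 := fun i => by
    have h1 := (hf i 0 (by simp)).2
    rw [tsum_eq_single 0 fun m hm => by simp [hm]] at h1
    simpa [hc] using h1.symm
  have hdiff := fun i => FA.MahlerIndependence.differentiableOn_of_rep (hf i)
  have hnear : ∀ i, ∀ᶠ z in 𝓝 (0 : ℂ), 1 / 2 ≤ ‖f i z‖ := fun i =>
    ((hdiff i).continuousOn.continuousAt (Metric.ball_mem_nhds _ one_pos)).norm.eventually
      (Ici_mem_nhds (show (1 / 2 : ℝ) < ‖f i 0‖ by rw [hf0, norm_one]; norm_num))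
  have hlim : Tendsto (fun k : ℕ => ψ α ^ d ^ k) atTop (𝓝 0) :=
    (tendsto_pow_atTop_nhds_zero_of_norm_lt_one hα1).comp
      (tendsto_pow_atTop_atTop_of_one_lt (by omega : 1 < d))
  have hfα : ∀ i, f i (ψ α) ≠ 0 := fun i h0 => by
    obtain ⟨k, hk⟩ := (hlim.eventually (hnear i)).exists
    have h1 := hval k i
    rw [h0, mul_eq_zero] at h1
    rcases h1 with h1 | h1
    · exact prod_ne_zero_iff.2 (fun j _ => mul_ne_zero (hv i j) (inv_ne_zero (hu i j)))
        ((map_eq_zero ψ).1 h1)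
    · rw [h1, norm_zero] at hk; norm_num at hk
  set Γ := 1 + ∑ i, 2 * ‖f i (ψ α)‖ with hΓdef
  have hΓi : ∀ i, 2 * ‖f i (ψ α)‖ ≤ Γ := fun i => by
    rw [hΓdef]
    linarith [single_le_sum (f := fun i => 2 * ‖f i (ψ α)‖) (fun j _ => by positivity)
      (mem_univ i)]
  have hΓ : 1 ≤ Γ := le_add_of_nonneg_right (sum_nonneg fun j _ => by positivity)
  -- the parameter
  set r := ‖ψ α‖
  have hr0 : 0 < r := norm_pos_iff.mpr ((map_ne_zero ψ).mpr hα0)
  set E₂ := 1 + n * J with hE₂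
  obtain ⟨s₀, hs₀⟩ := exists_pow_lt_of_lt_one
    (show 0 < 1 / (2 * W ^ (2 * h * E₂)) by positivity) hα1
  set s := s₀ + 2
  have hs : r ^ s * W ^ (2 * h * E₂) ≤ 1 / 2 := by
    have h1 : r ^ s ≤ r ^ s₀ := pow_le_pow_of_le_one hr0.le hα1.le (Nat.le_add_right _ _)
    calc r ^ s * W ^ (2 * h * E₂) ≤ 1 / (2 * W ^ (2 * h * E₂)) * W ^ (2 * h * E₂) :=
          mul_le_mul_of_nonneg_right (h1.trans hs₀.le) (by positivity)
      _ = 1 / 2 := by field_simp
  obtain ⟨N, M, ee, η, B, hN1, hMN, hηi, ⟨j₀, hj₀⟩, hB0, hup⟩ :=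
    exists_auxiliary (ψ := ψ) (adm_serP (R := R) hf)
      (by rw [constantCoeff_serP hc]; exact (IsRegular.of_ne_zero hR).left) (s := s) (by omega)
  obtain ⟨v₀, hv₀⟩ : ∃ v₀, η j₀ v₀ ≠ 0 := by
    by_contra hall
    push Not at hall
    exact hj₀ (sum_eq_zero fun x _ => by rw [hall x, zero_smul])
  let evK : ℕ → MvPolynomial (Fin n) K →+* K := fun k =>
    MvPolynomial.eval₂Hom (RingHom.id K) (γ k)
  have hgen : ∀ k i, Bd W (J * d ^ k) (evK k (MvPolynomial.X i)) := fun k i => by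
    simpa [evK] using hγ k i
  set Y : ℕ → K := fun k => ∑ t : Fin (N + 1) × (Fin n → Fin (N + 1)),
    η t.1 t.2 * ((α ^ d ^ k) ^ t.1.val * ∏ i, evK k (MvPolynomial.X i) ^ (t.2 i).val) with hYdef
  have hψY : ∀ k, ψ (Y k) = ∑ j : Fin (N + 1), ∑ x, ψ (η j x) *
      ((ψ α ^ d ^ k) ^ j.val * ∏ i, ψ (γ k i) ^ (x i).val) := fun k => by
    simp [hYdef, evK, Fintype.sum_prod_type, map_sum, map_prod]
  -- not all values vanish
  have hfreq : ∃ᶠ k in atTop, Y k ≠ 0 := by
    refine (frequently_sum_ne_zero hd hdiff (fun P hP => no_relation (d := d) (by omega)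
      (fun i h0 => hu i 0 (by rw [(Polynomial.map_eq_zero ψ).1 h0, Polynomial.eval_zero]))
      (fun i h0 => hv i 0 (by rw [(Polynomial.map_eq_zero ψ).1 h0, Polynomial.eval_zero])) heq
      (fun i => nhdsWithin_le_nhds ((hnear i).mono fun z hz h0 => by
        rw [h0, norm_zero] at hz; norm_num at hz)) hb hP)
      ((map_ne_zero ψ).mpr hα0) hα1 hfα (fun k i => ψ (γ k i)) hval (fun j x => ψ (η j x))
      ((map_ne_zero ψ).mpr hv₀)).mono fun k hk h0 => hk ?_
    rw [← hψY, h0, map_zero]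
  -- the house of the coefficients
  obtain ⟨E₀, hE₀⟩ := pow_unbounded_of_one_lt (∑ t : Fin (N + 1) × (Fin n → Fin (N + 1)),
    house (η t.1 t.2)) (show 1 < W by linarith)
  set Q := W ^ E₀ with hQ
  have hQ1 : 1 ≤ Q := one_le_pow₀ hW
  have hlimB : Tendsto (fun k : ℕ => B * Γ ^ ee * Q ^ (2 * h) * (1 / 2 : ℝ) ^ d ^ k)
      atTop (𝓝 0) := by
    simpa using ((tendsto_pow_atTop_nhds_zero_of_lt_one (by norm_num : (0 : ℝ) ≤ 1 / 2)
      (by norm_num)).comp (tendsto_pow_atTop_atTop_of_one_lt (by omega : 1 < d))).const_mul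
        (B * Γ ^ ee * Q ^ (2 * h))
  have hlim' : ∀ᶠ k : ℕ in atTop, ‖ψ α ^ d ^ k‖ ≤ 1 / 2 :=
    hlim.norm.eventually (ge_mem_nhds (by norm_num : ‖(0 : ℂ)‖ < 1 / 2))
  obtain ⟨k, hYk, hk1, hk2, hk3⟩ := (hfreq.and_eventually ((hlimB.eventually
    (gt_mem_nhds one_pos)).and (hlim'.and (hlim.eventually (eventually_all.2 hnear))))).exists
  -- the value
  have hle : ‖ψ (Y k)‖ ≤ B * Γ ^ ee * ‖ψ α ^ d ^ k‖ ^ M := by
    rw [show ψ (Y k) = ∑ j : Fin (N + 1), ∑ x, ψ (η j x) * ((ψ α ^ d ^ k) ^ j.val *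
        ∏ i, (ψ.comp (evK k)) (MvPolynomial.X i) ^ (x i).val) by simp [hψY, evK]]
    refine hup (ψ.comp (evK k)) (fun y => by simp [evK]) _ hΓ (fun i => ?_) _ hk2 ?_
    · refine le_trans ?_ (hΓi i)
      have h2 := congrArg norm (hval k i)
      rw [norm_mul] at h2
      rw [show (ψ.comp (evK k)) (MvPolynomial.X i) = ψ (γ k i) by simp [evK], ← h2]
      nlinarith [hk3 i, norm_nonneg (ψ (γ k i))]
    · have hA : ∀ i, Rep (RingHom.id ℂ) (PowerSeries.C (ψ (γ k i)) *
          PowerSeries.map ψ (PowerSeries.mk (c i))) fun w => ψ (γ k i) * f i w := fun i => by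
        have h2 : Rep (RingHom.id ℂ) (PowerSeries.map ψ (PowerSeries.mk (c i))) (f i) :=
          fun w hw => by simpa using hf i w hw
        simpa [PowerSeries.monomial_zero_eq_C] using
          (FA.Mahler.rep_monomial (ψ := RingHom.id ℂ) 0 (ψ (γ k i))).mul h2
      have h4 : (PowerSeries.map (ψ.comp (evK k))).comp (MvPolynomial.eval₂Hom
          (PowerSeries.C.comp MvPolynomial.C) fun i => PowerSeries.C (MvPolynomial.X i) *
            PowerSeries.map MvPolynomial.C (PowerSeries.mk (c i))) =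
          MvPolynomial.eval₂Hom (PowerSeries.C.comp ψ) fun i => PowerSeries.C (ψ (γ k i)) *
            PowerSeries.map ψ (PowerSeries.mk (c i)) := by
        refine MvPolynomial.ringHom_ext (fun y => by simp [evK]) fun i => ?_
        ext m
        simp [evK]
      have h5 := (FA.MahlerIndependence.rep_eval₂ hA ψ R _ (hz1 k)).2
      rw [← MvPolynomial.coe_eval₂Hom, ← h4] at h5
      simp only [RingHom.comp_apply, PowerSeries.coeff_map, RingHom.id_apply] at h5
      refine h5.trans (Eq.trans ?_ hRα)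
      congr 1
      funext i
      exact hval k i
  obtain ⟨nu, nu0, nu1, nu2, nu3⟩ := hαk k
  choose nv nv0 nv1 nv2 nv3 using hgen k
  set den : ℤ := nu ^ N * ∏ i, nv i ^ N with hden
  set X : K := (den : K) * Y k with hX
  have hXi : IsIntegral ℤ X := by
    simp only [X, Y, Finset.mul_sum]
    refine IsIntegral.sum _ fun t _ => ?_
    have hj : t.1.val ≤ N := Nat.lt_succ_iff.mp t.1.isLt
    have hk' : ∀ i, (t.2 i).val ≤ N := fun i => Nat.lt_succ_iff.mp (t.2 i).isLt
    rw [hden]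
    push_cast
    rw [show (nu : K) ^ N = (nu : K) ^ (N - t.1.val) * (nu : K) ^ t.1.val by
        rw [← pow_add, Nat.sub_add_cancel hj],
      show ∏ i, (nv i : K) ^ N = (∏ i, (nv i : K) ^ (N - (t.2 i).val)) *
          ∏ i, (nv i : K) ^ (t.2 i).val by
        rw [← prod_mul_distrib]
        exact prod_congr rfl fun i _ => by rw [← pow_add, Nat.sub_add_cancel (hk' i)],
      show (nu : K) ^ (N - t.1.val) * (nu : K) ^ t.1.val *
        ((∏ i, (nv i : K) ^ (N - (t.2 i).val)) * ∏ i, (nv i : K) ^ (t.2 i).val) *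
          (η t.1 t.2 * ((α ^ d ^ k) ^ t.1.val * ∏ i, evK k (MvPolynomial.X i) ^ (t.2 i).val)) =
        η t.1 t.2 * ((nu : K) ^ (N - t.1.val) * ∏ i, (nv i : K) ^ (N - (t.2 i).val)) *
          (((nu : K) * α ^ d ^ k) ^ t.1.val *
            ∏ i, ((nv i : K) * evK k (MvPolynomial.X i)) ^ (t.2 i).val) by
        simp only [mul_pow, prod_mul_distrib]
        ring]
    exact ((hηi _ _).mul (((isIntegral_algebraMap (R := ℤ) (x := nu)).pow _).mul
      (IsIntegral.prod _ fun i _ => (isIntegral_algebraMap (R := ℤ) (x := nv i)).pow _))).mul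
      ((nu2.pow _).mul (IsIntegral.prod _ fun i _ => (nv2 i).pow _))
  have hden0 : den ≠ 0 := mul_ne_zero (pow_ne_zero _ nu0)
    (prod_ne_zero_iff.2 fun i _ => pow_ne_zero _ (nv0 i))
  have hX0 : (⟨X, hXi⟩ : 𝓞 K) ≠ 0 := fun h0 =>
    mul_ne_zero (Int.cast_ne_zero.mpr hden0) hYk (congrArg Subtype.val h0)
  set P := W ^ (N * E₂ * d ^ k) with hP
  have hP0 : 0 ≤ P := by positivity
  have hP' : (W ^ d ^ k) ^ N * ∏ _i : Fin n, (W ^ (J * d ^ k)) ^ N = P := by
    rw [prod_const, card_univ, Fintype.card_fin, ← pow_mul, ← pow_mul,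
      ← pow_mul, ← pow_add, hP, hE₂]
    congr 1
    ring
  have hdenP : |(den : ℝ)| ≤ P := by
    rw [hden, Int.cast_mul, Int.cast_pow, Int.cast_prod, abs_mul, abs_pow, abs_prod, ← hP']
    refine mul_le_mul (pow_le_pow_left₀ (abs_nonneg _) nu1 _) (prod_le_prod
      (fun i _ => abs_nonneg _) fun i _ => ?_) (prod_nonneg fun i _ => abs_nonneg _)
      (by positivity)
    rw [Int.cast_pow, abs_pow]
    exact pow_le_pow_left₀ (abs_nonneg _) (nv1 i) _
  have hYh : house (Y k) ≤ Q * P := by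
    refine (house_sum_le_sum_house _ _).trans ?_
    refine (Finset.sum_le_sum (g := fun t => house (η t.1 t.2) * P) fun t _ => ?_).trans ?_
    · refine (house_mul_le _ _).trans (mul_le_mul_of_nonneg_left ?_ (house_nonneg _))
      rw [← hP']
      refine (house_mul_le _ _).trans (mul_le_mul ?_ (house_prod_le _ _ _ fun i _ => ?_)
        (house_nonneg _) (by positivity))
      · exact (house_pow_le _ _).trans ((pow_le_pow_left₀ (house_nonneg _) nu3 _).trans
          (pow_le_pow_right₀ (one_le_pow₀ hW) (Nat.lt_succ_iff.mp t.1.isLt)))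
      · exact (house_pow_le _ _).trans ((pow_le_pow_left₀ (house_nonneg _) (nv3 i) _).trans
          (pow_le_pow_right₀ (one_le_pow₀ hW) (Nat.lt_succ_iff.mp (t.2 i).isLt)))
    · rw [← Finset.sum_mul]
      exact mul_le_mul_of_nonneg_right hE₀.le hP0
  set Bk := B * Γ ^ ee with hBk
  have hBk0 : 0 ≤ Bk := by positivity
  have hXψ : ‖ψ X‖ ≤ P * (Bk * (r ^ d ^ k) ^ M) := by
    rw [hX, map_mul, map_intCast, norm_mul, Complex.norm_intCast]
    refine mul_le_mul hdenP (hle.trans_eq ?_) (norm_nonneg _) hP0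
    rw [norm_pow]
  have hXh : house X ≤ P * (Q * P) := by
    refine (house_mul_le _ _).trans (mul_le_mul ?_ hYh (house_nonneg _) hP0)
    rw [house_intCast, Int.cast_abs]
    exact hdenP
  have hh : 0 < h := finrank_pos
  have hmain := (GelfondSchneider.one_le_norm_mul_house_pow hX0 ψ).trans (mul_le_mul hXψ
    (pow_le_pow_left₀ (house_nonneg _) hXh (h - 1)) (pow_nonneg (house_nonneg _) _) (by positivity))
  have hP2 : P * (P * (Q * P)) ^ (h - 1) ≤ P ^ (2 * h) * Q ^ (2 * h) := by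
    have hP1 : 1 ≤ P := one_le_pow₀ hW
    rw [show P * (Q * P) = P ^ 2 * Q by ring, mul_pow, ← pow_mul, ← mul_assoc, ← pow_succ']
    exact mul_le_mul (pow_le_pow_right₀ hP1 (by omega)) (pow_le_pow_right₀ hQ1 (by omega))
      (by positivity) (by positivity)
  have hfinal : (r ^ d ^ k) ^ M * P ^ (2 * h) ≤ (1 / 2 : ℝ) ^ d ^ k := by
    refine (mul_le_mul_of_nonneg_right (pow_le_pow_of_le_one (by positivity)
      (pow_le_one₀ hr0.le hα1.le) hMN) (by positivity)).trans ?_
    rw [hP, ← pow_mul, ← pow_mul,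
      show d ^ k * (s * N) = s * (N * d ^ k) by ring,
      show N * E₂ * d ^ k * (2 * h) = 2 * h * E₂ * (N * d ^ k) by ring, pow_mul r, pow_mul W,
      ← mul_pow]
    exact (pow_le_pow_left₀ (by positivity) hs _).trans (pow_le_pow_of_le_one (by norm_num)
      (by norm_num) (Nat.le_mul_of_pos_left _ hN1))
  have : (1 : ℝ) ≤ Bk * Q ^ (2 * h) * (1 / 2 : ℝ) ^ d ^ k := by
    refine hmain.trans ?_
    rw [show P * (Bk * (r ^ d ^ k) ^ M) * (P * (Q * P)) ^ (h - 1) =
      Bk * ((r ^ d ^ k) ^ M * (P * (P * (Q * P)) ^ (h - 1))) by ring, mul_assoc Bk]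
    refine mul_le_mul_of_nonneg_left ?_ hBk0
    refine (mul_le_mul_of_nonneg_left hP2 (by positivity)).trans ?_
    rw [← mul_assoc, mul_comm (Q ^ (2 * h))]
    exact mul_le_mul_of_nonneg_right hfinal (by positivity)
  linarith

/-- **Kubota's theorem.** -/
theorem algebraicIndependent_values (ψ : K →+* ℂ) (c : Fin n → ℕ → K) {f : Fin n → ℂ → ℂ}
    (hf : ∀ i, Rep ψ (PowerSeries.mk (c i)) (f i)) (hc : ∀ i, c i 0 = 1) {d : ℕ} (hd : 2 ≤ d)
    (u v : Fin n → Polynomial K)
    (heq : ∀ i, ∀ z : ℂ, ‖z‖ < 1 →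
      ((v i).map ψ).eval z * f i (z ^ d) = ((u i).map ψ).eval z * f i z)
    (hb : NoQuotient (by omega : 0 < d) (fun i => (u i).map ψ) fun i => (v i).map ψ)
    {α : ℂ} (hα : IsAlgebraic ℚ α) (hα0 : α ≠ 0) (hα1 : ‖α‖ < 1)
    (hu : ∀ i k, ((u i).map ψ).eval (α ^ d ^ k) ≠ 0)
    (hv : ∀ i k, ((v i).map ψ).eval (α ^ d ^ k) ≠ 0) :
    AlgebraicIndependent ℚ fun i => f i α := by
  rw [algebraicIndependent_iff]
  intro R hR
  by_contra hR0
  set F := ψ.toRatAlgHom.fieldRange ⊔ IntermediateField.adjoin ℚ ({α} : Set ℂ)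
  haveI : FiniteDimensional ℚ ψ.toRatAlgHom.fieldRange :=
    ψ.toRatAlgHom.toLinearMap.finiteDimensional_range
  haveI : FiniteDimensional ℚ (IntermediateField.adjoin ℚ ({α} : Set ℂ)) :=
    IntermediateField.finiteDimensional_adjoin fun z hz => by
      rw [Set.mem_singleton_iff] at hz
      exact hz ▸ hα.isIntegral
  haveI : FiniteDimensional ℚ F := IntermediateField.finiteDimensional_sup _ _
  haveI : NumberField F := { }
  let ι : K →+* F := (ψ.toRatAlgHom.codRestrict F.toSubalgebra fun x =>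
    le_sup_left (a := ψ.toRatAlgHom.fieldRange) ⟨x, rfl⟩).toRingHom
  have hι : (F.val.toRingHom).comp ι = ψ := rfl
  have hαF : α ∈ F := le_sup_right (a := ψ.toRatAlgHom.fieldRange)
    (IntermediateField.subset_adjoin ℚ _ rfl)
  refine false_of_value_relation F.val.toRingHom (fun i m => ι (c i m)) (f := f) (fun i => ?_)
    (fun i => by simp [hc]) hd
    (fun i => (u i).map ι) (fun i => (v i).map ι) (fun i z hz => ?_) ?_ ⟨α, hαF⟩
    (fun h => hα0 (congrArg Subtype.val h)) hα1 (fun i k h => hu i k ?_) (fun i k h => hv i k ?_)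
    (R := MvPolynomial.map (algebraMap ℚ F) R) ?_ ?_
  · intro z hz
    simp only [PowerSeries.coeff_mk]
    have := hf i z hz
    simp only [PowerSeries.coeff_mk] at this
    exact this
  · simp only [Polynomial.map_map, hι]
    exact heq i z hz
  · simp only [Polynomial.map_map, hι]
    exact hb
  · have e := congrArg F.val.toRingHom h
    rw [map_zero, ← Polynomial.eval_map_apply, Polynomial.map_map, hι] at e
    exact e
  · have e := congrArg F.val.toRingHom h
    rw [map_zero, ← Polynomial.eval_map_apply, Polynomial.map_map, hι] at e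
    exact e
  · exact fun h => hR0 (MvPolynomial.map_injective _ (algebraMap ℚ F).injective
      (by rw [h, map_zero]))
  · rw [MvPolynomial.eval₂_map, ← hR, MvPolynomial.aeval_def]
    congr 1

end FA.MahlerProducts

end
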