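import Fermat.Agent.MahlerProducts.Cyclotomic
import Fermat.Agent.MahlerProducts.Values
import Fermat.Agent.MahlerTwist.Series
import Fermat.Agent.Transcendence.MahlerThueMorse

/-!
# The products `∏_k (1 - z ^ (j d ^ k))`

Expanded over the finite sets of indices such a product is a power series with rational
coefficients, and `(1 - z ^ j)` times its value at `z ^ d` is its value at `z`.
-/

set_option autoImplicit false

noncomputable section

namespace FA.MahlerProducts

open Finset
open FA.Mahler (Rep)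

variable {d : ℕ}

/-- `∏_k (1 - z ^ (j d ^ k))`. -/
def lacProd (d j : ℕ) (z : ℂ) : ℂ := ∏' k : ℕ, (1 - z ^ (j * d ^ k))

/-- The coefficients of `lacProd`. -/
def lacProdCoeff (d j m : ℕ) : ℚ :=
  ∑ s ∈ (range (m + 1)).powerset.filter (fun s => ∑ k ∈ s, j * d ^ k = m), (-1) ^ s.card

theorem summable_norm_pow (hd : 2 ≤ d) {j : ℕ} (hj : 0 < j) {z : ℂ} (hz : ‖z‖ < 1) :
    Summable fun k : ℕ => ‖-(z ^ (j * d ^ k))‖ :=
  Summable.of_nonneg_of_le (fun _ => norm_nonneg _) (fun k => by
    rw [norm_neg, norm_pow]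
    exact pow_le_pow_of_le_one (norm_nonneg z) hz.le
      ((Nat.lt_pow_self (by omega)).le.trans (Nat.le_mul_of_pos_left _ hj)))
    (summable_geometric_of_lt_one (norm_nonneg z) hz)

theorem rep_lacProd (hd : 2 ≤ d) {j : ℕ} (hj : 0 < j) :
    Rep (algebraMap ℚ ℂ) (PowerSeries.mk (lacProdCoeff d j)) (lacProd d j) := by
  have hterm : ∀ (z : ℂ) (s : Finset ℕ), algebraMap ℚ ℂ ((-1) ^ s.card) *
      z ^ ∑ k ∈ s, j * d ^ k = ∏ k ∈ s, -(z ^ (j * d ^ k)) := fun z s => by
    rw [prod_neg, prod_pow_eq_pow_sum]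
    simp
  have h := FA.MahlerTwist.rep_of_family (ψ := algebraMap ℚ ℂ)
    (fun s : Finset ℕ => ∑ k ∈ s, j * d ^ k)
    (fun m => (range (m + 1)).powerset.filter fun s => ∑ k ∈ s, j * d ^ k = m)
    (fun m s => by
      rw [mem_filter, mem_powerset]
      refine ⟨And.right, fun h => ⟨fun k hk => mem_range.2 (Nat.lt_succ_of_le ?_), h⟩⟩
      calc k ≤ d ^ k := (Nat.lt_pow_self (by omega)).le
        _ ≤ j * d ^ k := Nat.le_mul_of_pos_left _ hj
        _ ≤ m := h ▸ single_le_sum (f := fun k => j * d ^ k) (fun _ _ => Nat.zero_le _) hk)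
    (fun s => (-1) ^ s.card) fun z hz => by
      simp only [hterm, norm_prod]
      exact summable_finsetProd_of_summable_nonneg (fun _ => norm_nonneg _)
        (summable_norm_pow hd hj hz)
  intro z hz
  obtain ⟨h1, h2⟩ := h z hz
  refine ⟨h1, h2.trans ?_⟩
  beta_reduce
  simp only [hterm, lacProd, sub_eq_add_neg]
  exact (tprod_one_add (summable_finsetProd_of_summable_norm (summable_norm_pow hd hj hz))).symm

theorem lacProdCoeff_zero (hd : 0 < d) {j : ℕ} (hj : 0 < j) : lacProdCoeff d j 0 = 1 := by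
  have h : (range (0 + 1)).powerset.filter (fun s => ∑ k ∈ s, j * d ^ k = 0) = {∅} := by
    refine eq_singleton_iff_unique_mem.2 ⟨by simp, fun s hs => eq_empty_of_forall_notMem ?_⟩
    intro k hk
    have := (mem_filter.1 hs).2
    exact absurd (sum_eq_zero_iff.1 this k hk) (Nat.mul_pos hj (pow_pos hd k)).ne'
  rw [lacProdCoeff, h, sum_singleton, card_empty, pow_zero]

theorem lacProd_eq (hd : 2 ≤ d) {j : ℕ} (hj : 0 < j) {z : ℂ} (hz : ‖z‖ < 1) :
    (1 - z ^ j) * lacProd d j (z ^ d) = lacProd d j z := by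
  have hs : ∀ k, (1 - (z ^ d) ^ (j * d ^ k)) = 1 - z ^ (j * d ^ (k + 1)) := fun k => by
    rw [← pow_mul]
    congr 2
    ring
  have hm : Multipliable fun k => 1 - z ^ (j * d ^ (k + 1)) := by
    have := multipliable_one_add_of_summable
      ((summable_norm_pow hd hj hz).comp_injective Nat.succ_injective)
    simpa [← sub_eq_add_neg, Nat.succ_eq_add_one] using this
  rw [lacProd, lacProd, tprod_eq_zero_mul' (f := fun k => 1 - z ^ (j * d ^ k)) hm, tprod_congr hs,
    pow_zero, mul_one]

theorem NoQuotient.swap {n : ℕ} {hd : 0 < d} {u v : Fin n → Polynomial ℂ}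
    (h : NoQuotient hd u v) : NoQuotient hd v u := fun e g hg he => by
  refine neg_eq_zero.1 (h (-e) g hg (he.trans ?_))
  simp only [Pi.neg_apply, ← inv_div (algebraMap _ (RatFunc ℂ) (v _)), inv_zpow', neg_neg]

/-- **Independence over all `j`.** -/
theorem algebraicIndependent_lacProd (hd : 2 ≤ d) {α : ℂ} (hα : IsAlgebraic ℚ α) (hα0 : α ≠ 0)
    (hα1 : ‖α‖ < 1) :
    AlgebraicIndependent ℚ fun j : {j : ℕ // ¬ d ∣ j} => lacProd d j α := by
  classical
  rw [algebraicIndependent_iff]
  intro P hP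
  obtain ⟨n, e, he, R, rfl⟩ := MvPolynomial.exists_fin_rename P
  have hpos : ∀ i, 0 < (e i).1 := fun i => Nat.pos_of_ne_zero fun h0 =>
    (e i).2 (h0 ▸ dvd_zero d)
  have hb := (noQuotient_one_sub_pow hd (fun i => (e i).2)
    (Subtype.val_injective.comp he)).swap
  have h := algebraicIndependent_values (algebraMap ℚ ℂ) (fun i => lacProdCoeff d (e i))
    (f := fun i => lacProd d (e i)) (fun i => rep_lacProd hd (hpos i))
    (fun i => lacProdCoeff_zero (by omega) (hpos i)) hd (fun _ => 1)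
    (fun i => 1 - Polynomial.X ^ (e i).1)
    (fun i z hz => by simpa using lacProd_eq hd (hpos i) hz) (by simpa using hb) hα hα0 hα1
    (fun _ _ => by simp) fun i k h0 => by
      have h1 : ‖(α ^ d ^ k) ^ (e i).1‖ < 1 := by
        rw [norm_pow, norm_pow, ← pow_mul]
        exact pow_lt_one₀ (norm_nonneg _) hα1
          (Nat.mul_ne_zero (pow_ne_zero _ (by omega)) (hpos i).ne')
      simp only [Polynomial.map_sub, Polynomial.map_one, Polynomial.map_pow, Polynomial.map_X,
        Polynomial.eval_sub, Polynomial.eval_one, Polynomial.eval_pow, Polynomial.eval_X,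
        sub_eq_zero] at h0
      rw [← h0, norm_one] at h1
      exact lt_irrefl _ h1
  rw [MvPolynomial.aeval_rename] at hP
  rw [algebraicIndependent_iff.1 h R hP, map_zero]

/-- For `d = 2` these are the series of Thue and Morse. -/
theorem lacProd_two {j : ℕ} (hj : 0 < j) {z : ℂ} (hz : ‖z‖ < 1) :
    lacProd 2 j z = FA.Mahler.tmSeries (z ^ j) := by
  rw [lacProd, ← (FA.Mahler.hasProd_tmSeries (z := z ^ j) (by
    rw [norm_pow]; exact pow_lt_one₀ (norm_nonneg z) hz hj.ne')).tprod_eq]
  simp only [pow_mul]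

end FA.MahlerProducts

end
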